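import Fermat.Agent.LT.A2.H792.Diag

/-!
# Row LT, tower A2, leaf A2.03.8.6 `H142.RecInertC` (helper792): THE RECURSION AT AN INERT PLACE

OFF-MAIN.  `recInertC792 : H142.RecInertC`, complete proof, nothing assumed.

Let `v ∤ π.level` be inert, `ϖ` a uniformiser, `g'` trivial at `v`, `ω_j = W(diag(ϖ^j, 1)_v g')`.

* `ω_j = 0` for `j` odd: the norm of an element of `T(K_v)` has even valuation
  (`aniso_even792`), so `diag(ϖ^j, 1)_v g' ∉ GL₂(𝔸_K)⁺` (`not_inGPlus_of_odd792`), `IsWhit.off`.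
* `ω_{2i} = q^{-i} χT(z)^i W(g')`, `z = ϖ · 1₂`: `diag(y², 1) = t(y²) d(det μ)`, `μ = y · 1₂`,
  `y = ϖ^i`; `diagA`, `torA`, `tor1` and `good_std` (the elements of `T¹(𝔸_K)` are integral at
  `v`, `isIntegralAt_of_inTorus1_792`) give the pointwise identity of the integrands
  `F (x g') (m μ m_{g'}) e₁ = η(y²) |y²| |y²|^{-1/2} F g' (m m_{g'}) e₁`; the measure `μT` is
  carried by `T¹(𝔸_K)` (`whit_diag792`).
* `a = 0`, `b = -χT(z)` (`InducedAtT`, second half), hence the recursion.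
-/

set_option autoImplicit false

open IsDedekindDomain NumberField AutomorphicForm MeasureTheory
open scoped MatrixGroups

noncomputable section

namespace Fermat.Agent.LT.A2.H792

open Fermat.Agent.LT.H556 Fermat.Agent.LT.H556.A0 Fermat.Agent.LT.H129 Fermat.Agent.LT.A2
open Fermat.Agent.LT.A2.H593 Fermat.Agent.LT.A2.H142

variable {K : Type} [Field K] [NumberField K]

/-! ## The vector `μ⁻¹ (a e₁)` -/

theorem actV_scalar792 (v : HeightOneSpectrum (𝓞 K)) (y : v.adicCompletion K) (hy : y ≠ 0) :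
    actV (locFin129 v (diag129 y y hy hy))⁻¹
        ((idl792 v (y * y) (mul_ne_zero hy hy) : Adl K) • ((1 : Adl K), (0 : Adl K)))
      = ((idl792 v y hy : Adl K), (0 : Adl K)) := by
  rw [← map_inv, diag129_inv792]
  unfold actV
  rw [coe_locFin_diag792, idl792_inv, idl792_mul]
  refine Prod.ext ?_ ?_
  · show ((idl792 v y hy)⁻¹ : (Adl K)ˣ).val
        * (((idl792 v y hy * idl792 v y hy : (Adl K)ˣ) : Adl K) * 1)
        + 0 * (((idl792 v y hy * idl792 v y hy : (Adl K)ˣ) : Adl K) * 0) = _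
    rw [mul_one, mul_zero, mul_zero, add_zero, ← Units.val_mul, inv_mul_cancel_left]
  · show 0 * (((idl792 v y hy * idl792 v y hy : (Adl K)ˣ) : Adl K) * 1)
        + ((idl792 v y hy)⁻¹ : (Adl K)ˣ).val
          * (((idl792 v y hy * idl792 v y hy : (Adl K)ˣ) : Adl K) * 0) = _
    rw [mul_zero, mul_zero, zero_mul, add_zero]

theorem agree_idl792 (v : HeightOneSpectrum (𝓞 K)) (y : v.adicCompletion K) (hy : y ≠ 0) :
    WL.AgreeOffFin v ((idl792 v y hy : Adl K), (0 : Adl K)) ((1 : Adl K), (0 : Adl K)) :=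
  ⟨fun w => ⟨idl792_inf v y hy w, rfl⟩, fun _ h => ⟨idl792_of_ne v y hy h, rfl⟩⟩

theorem vecInt_idl792 (v : HeightOneSpectrum (𝓞 K)) (y : v.adicCompletion K) (hy : y ≠ 0)
    (hy1 : Valued.v y ≤ 1) :
    WL.VecIntegralAt v ((idl792 v y hy : Adl K), (0 : Adl K)) := by
  constructor
  · show (idl792 v y hy : Adl K).2 v ∈ v.adicCompletionIntegers K
    rw [idl792_same]
    exact hy1
  · exact (v.adicCompletionIntegers K).zero_mem

theorem vecInt_e1_792 (v : HeightOneSpectrum (𝓞 K)) :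
    WL.VecIntegralAt v ((1 : Adl K), (0 : Adl K)) :=
  ⟨(v.adicCompletionIntegers K).one_mem, (v.adicCompletionIntegers K).zero_mem⟩

/-! ## The pointwise identity -/

section Pointwise

variable {D : KData K} {η : (Adl K)ˣ → ℂ} {W : G K → ℂ} {v : HeightOneSpectrum (𝓞 K)}

/-- `F g' (m m_{g'}) ξ = F g' (m m_{g'}) e₁` for `m ∈ T¹(𝔸_K)`, `g'`, `m_{g'}` trivial at `v`,
`ξ` integral at `v` with the components of `e₁` outside `v`. -/
theorem F_std792 (hctx : HCtx D η W v) (hc : InertCtx792 D.t D.n v) {g' mg m : G K}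
    (hadm : Adm D.t D.n g' mg) (hg' : TrivAtFin v g') (hmg : TrivAtFin v mg)
    (hm : InTorus1 D.t D.n m) {ξ : Adl K × Adl K}
    (hag : WL.AgreeOffFin v ξ ((1 : Adl K), (0 : Adl K))) (hint : WL.VecIntegralAt v ξ) :
    D.F g' (m * mg) ξ = D.F g' (m * mg) ((1 : Adl K), (0 : Adl K)) := by
  have hminv : IsIntegralAt v m⁻¹ := isIntegralAt_of_inTorus1_792 hc (inTorus1_inv593 hm)
  rw [hctx.good.weil.tor1 m hm g' mg ξ hadm, hctx.good.weil.tor1 m hm g' mg _ hadm]
  exact (hctx.std.good_std v hctx.hv g' mg hadm hg' hmg).2 _ _ (actV_agree792 v m⁻¹ hag)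
    (actV_integral792 v hminv hint) (actV_integral792 v hminv (vecInt_e1_792 v))

/-- The integrand at `diag(y², 1)_v g'`. -/
theorem F_diag792 (hctx : HCtx D η W v) (hc : InertCtx792 D.t D.n v)
    (y : v.adicCompletion K) (hy0 : y ≠ 0) (hy : Valued.v y ≤ 1) {g' mg m : G K}
    (hadm : Adm D.t D.n g' mg) (hg' : TrivAtFin v g') (hmg : TrivAtFin v mg)
    (hm : InTorus1 D.t D.n m) :
    D.F (locFin129 v (diag129 (y * y) 1 (mul_ne_zero hy0 hy0) one_ne_zero) * g')
        (m * (locFin129 v (diag129 y y hy0 hy0) * mg)) ((1 : Adl K), (0 : Adl K))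
        * D.χT (m * (locFin129 v (diag129 y y hy0 hy0) * mg))
      = (((‖y‖ : ℝ) : ℂ) * D.χT (locFin129 v (diag129 y y hy0 hy0)))
        * (D.F g' (m * mg) ((1 : Adl K), (0 : Adl K)) * D.χT (m * mg)) := by
  have hyy : y * y ≠ 0 := mul_ne_zero hy0 hy0
  set a : (Adl K)ˣ := idl792 v (y * y) hyy with ha
  set μ' : G K := locFin129 v (diag129 y y hy0 hy0) with hμ'
  set s : G K := locFin129 v (diag129 (y * y) (y * y)⁻¹ hyy (inv_ne_zero hyy)) with hs
  set d : G K := locFin129 v (diag129 1 (y * y) one_ne_zero hyy) with hd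
  have hμT : InTorus D.t D.n μ' := inTorus_scalar792 D.t D.n v y hy0
  have hdetμ : Matrix.GeneralLinearGroup.det μ' = a :=
    det_locFin792 v _ (y * y) hyy (det_diag129_792 y y hy0 hy0)
  have hdetd : Matrix.GeneralLinearGroup.det d = a :=
    det_locFin792 v _ (y * y) hyy (by rw [det_diag129_792, one_mul])
  have hsA : WL.IsDiagSLA s a := isDiagSLA792 v (y * y) hyy
  have hdA : WL.IsDiagOneA d (Matrix.GeneralLinearGroup.det μ') := by
    rw [hdetμ]; exact isDiagOneA792 v (y * y) hyy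
  have hx : locFin129 v (diag129 (y * y) 1 hyy one_ne_zero) = s * d := by
    rw [hs, hd, ← map_mul, diag129_mul792]
    congr 1
    exact diag129_congr792 (mul_one _).symm (inv_mul_cancel₀ hyy).symm _ _ _ _
  -- the partner
  have hM : Adm D.t D.n g' (m * mg) := adm_mul_tor1_593 hadm hm
  have hcomm : m * (μ' * mg) = μ' * (m * mg) := by
    rw [← mul_assoc, inTorus_comm593 hm.1 hμT, mul_assoc]
  have hdM : Adm D.t D.n (d * g') (μ' * (m * mg)) :=
    ⟨inTorus_mul593 hμT hM.1, by rw [map_mul, map_mul, hdetd, hdetμ, hM.2]⟩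
  -- the module
  have hna : T1.adNorm K (a : Adl K) = ‖y‖ ^ 2 := by
    rw [ha, adNorm_idl792, norm_mul, sq]
  have hy_ne : (‖y‖ : ℝ) ≠ 0 := norm_ne_zero_iff.mpr hy0
  have hsq : Real.sqrt (T1.adNorm K ((Matrix.GeneralLinearGroup.det μ' : (Adl K)ˣ) : Adl K))
      = ‖y‖ := by
    rw [hdetμ, hna, Real.sqrt_sq (norm_nonneg y)]
  -- the quadratic character
  have hηa : η a = 1 := by
    have e : a = idl792 v y hy0 * idl792 v y hy0 := idl792_mul v y y hy0 hy0
    rw [e, hctx.std.quad.mul]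
    rcases hctx.std.quad.sq (idl792 v y hy0) with h | h <;> rw [h] <;> norm_num
  -- the three formulas
  have h1 := hctx.std.diagA s a hsA (d * g') (μ' * (m * mg)) ((1 : Adl K), (0 : Adl K)) hdM
  have h2 := hctx.std.torA μ' d hμT hdA g' (m * mg)
    ((a : Adl K) • ((1 : Adl K), (0 : Adl K))) hM
  have h3 : D.F g' (m * mg) (actV μ'⁻¹ ((a : Adl K) • ((1 : Adl K), (0 : Adl K))))
      = D.F g' (m * mg) ((1 : Adl K), (0 : Adl K)) := by
    rw [hμ', ha, actV_scalar792 v y hy0]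
    exact F_std792 hctx hc hadm hg' hmg hm (agree_idl792 v y hy0) (vecInt_idl792 v y hy0 hy)
  rw [hsq, h3] at h2
  have hyC : ((‖y‖ : ℝ) : ℂ) ≠ 0 := by exact_mod_cast hy_ne
  have h4 : D.F (d * g') (μ' * (m * mg)) ((a : Adl K) • ((1 : Adl K), (0 : Adl K)))
      = ((‖y‖ : ℝ) : ℂ)⁻¹ * D.F g' (m * mg) ((1 : Adl K), (0 : Adl K)) := by
    rw [← h2, inv_mul_cancel_left₀ hyC]
  rw [hcomm, hx, mul_assoc s d g', h1, h4, hηa, hna,
    hctx.good.torus.mul μ' (m * mg) hμT hM.1]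
  push_cast
  field_simp

end Pointwise

/-! ## The values at the even powers -/

section Even

variable {D : KData K} {η : (Adl K)ˣ → ℂ} {W : G K → ℂ} {v : HeightOneSpectrum (𝓞 K)}

/-- `W(diag(y², 1)_v g') = |y|_v χT(y · 1₂) W(g')` for `y` integral, `g'` trivial at `v`. -/
theorem whit_diag792 (hctx : HCtx D η W v) (hc : InertCtx792 D.t D.n v)
    (y : v.adicCompletion K) (hy0 : y ≠ 0) (hy : Valued.v y ≤ 1) (g' : G K)
    (hg' : TrivAtFin v g') :
    W (locFin129 v (diag129 (y * y) 1 (mul_ne_zero hy0 hy0) one_ne_zero) * g')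
      = (((‖y‖ : ℝ) : ℂ) * D.χT (locFin129 v (diag129 y y hy0 hy0))) * W g' := by
  have hyy : y * y ≠ 0 := mul_ne_zero hy0 hy0
  have hμT : InTorus D.t D.n (locFin129 v (diag129 y y hy0 hy0)) :=
    inTorus_scalar792 D.t D.n v y hy0
  have hxadm : Adm D.t D.n (locFin129 v (diag129 (y * y) 1 hyy one_ne_zero))
      (locFin129 v (diag129 y y hy0 hy0)) :=
    ⟨hμT, by
      rw [det_locFin792 v _ (y * y) hyy (by rw [det_diag129_792, mul_one]),
        det_locFin792 v _ (y * y) hyy (det_diag129_792 y y hy0 hy0)]⟩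
  by_cases hG : InGPlus D.t D.n g'
  · obtain ⟨mg, hadm, hmg⟩ := exists_adm_triv792 hg' hG
    rw [hctx.whit.formula _ _ (adm_mul593 hxadm hadm), hctx.whit.formula g' mg hadm]
    unfold KData.intT
    let _ : MeasurableSpace (G K) := borel (G K)
    rw [← integral_const_mul]
    apply integral_congr_ae
    have hae : ∀ᵐ m ∂D.μT, InTorus1 D.t D.n m := by
      rw [ae_iff]
      exact hctx.good.measured.carried
    filter_upwards [ae_restrict_of_ae hae] with m hm
    exact F_diag792 hctx hc y hy0 hy hadm hg' hmg hm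
  · have hG' : ¬ InGPlus D.t D.n (locFin129 v (diag129 (y * y) 1 hyy one_ne_zero) * g') := by
      intro h
      apply hG
      have := inGPlus_mul593 (inGPlus_inv593 ⟨_, hxadm⟩) h
      rwa [inv_mul_cancel_left] at this
    rw [hctx.whit.off _ hG', hctx.whit.off _ hG, mul_zero]

/-- `χT(ϖ^i · 1₂) = χT(ϖ · 1₂)^i`. -/
theorem chi_scalar_pow792 (hctx : HCtx D η W v) (ϖ : v.adicCompletion K) (h : ϖ ≠ 0) (i : ℕ) :
    D.χT (locFin129 v (diag129 (ϖ ^ i) (ϖ ^ i) (pow_ne_zero i h) (pow_ne_zero i h)))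
      = D.χT (locFin129 v (diag129 ϖ ϖ h h)) ^ i := by
  induction i with
  | zero =>
    have e : diag129 (ϖ ^ 0) (ϖ ^ 0) (pow_ne_zero 0 h) (pow_ne_zero 0 h) = 1 :=
      (diag129_congr792 (pow_zero ϖ) (pow_zero ϖ) _ _ one_ne_zero one_ne_zero).trans
        diag129_one792
    rw [e, map_one, hctx.good.torus.one, pow_zero]
  | succ i ih =>
    have e : diag129 (ϖ ^ (i + 1)) (ϖ ^ (i + 1)) (pow_ne_zero (i + 1) h) (pow_ne_zero (i + 1) h)
        = diag129 (ϖ ^ i) (ϖ ^ i) (pow_ne_zero i h) (pow_ne_zero i h) * diag129 ϖ ϖ h h := by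
      rw [diag129_mul792]
      exact diag129_congr792 (pow_succ ϖ i) (pow_succ ϖ i) _ _ _ _
    rw [e, map_mul, hctx.good.torus.mul _ _ (inTorus_scalar792 D.t D.n v _ _)
      (inTorus_scalar792 D.t D.n v _ _), ih, pow_succ]

end Even

/-! ## The recursion -/

section Main

variable {D : KData K} {η : (Adl K)ˣ → ℂ} {W : G K → ℂ} {v : HeightOneSpectrum (𝓞 K)}

theorem finComp_dgl_mul792 (v : HeightOneSpectrum (𝓞 K)) (x : GL (Fin 2) (v.adicCompletion K))
    {g' : G K} (hg' : TrivAtFin v g') :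
    finComp v (locFin129 v x * g') = (x : Matrix (Fin 2) (Fin 2) (v.adicCompletion K)) := by
  rw [← coe_finCompHom129, map_mul, finCompHom129_locFin129, (trivAtFin_iff129 v g').mp hg',
    mul_one]

/-- `ω_j = 0` for `j` odd. -/
theorem om_odd792 (hctx : HCtx D η W v) (hc : InertCtx792 D.t D.n v)
    (ϖ : v.adicCompletion K) (hϖ : Valued.v ϖ = WithZero.exp (-1 : ℤ)) (g' : G K)
    (hg' : TrivAtFin v g') (i : ℕ) :
    om142 W v ϖ (unif_ne_zero129 v hϖ) g' (2 * i + 1) = 0 := by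
  unfold om142
  apply hctx.whit.off
  apply not_inGPlus_of_odd792 hc (j := -((2 * i + 1 : ℕ) : ℤ))
  · rw [even_neg, Int.even_coe_nat]
    simp
  · rw [finComp_dgl_mul792 v _ hg']
    unfold dgl142
    rw [det_diag129_792, mul_one, map_pow, hϖ, ← WithZero.exp_nsmul]
    congr 1
    simp

/-- `ω_{2i} = q^{-i} χT(ϖ · 1₂)^i W(g')`. -/
theorem om_even792 (hctx : HCtx D η W v) (hc : InertCtx792 D.t D.n v)
    (ϖ : v.adicCompletion K) (hϖ : Valued.v ϖ = WithZero.exp (-1 : ℤ)) (g' : G K)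
    (hg' : TrivAtFin v g') (i : ℕ) :
    om142 W v ϖ (unif_ne_zero129 v hϖ) g' (2 * i)
      = ((qC142 v)⁻¹ ^ i * D.χT (locFin129 v (diag129 ϖ ϖ (unif_ne_zero129 v hϖ)
          (unif_ne_zero129 v hϖ))) ^ i) * W g' := by
  have h := unif_ne_zero129 v hϖ
  have hy : Valued.v (ϖ ^ i) ≤ 1 := by
    rw [map_pow, hϖ]
    refine pow_le_one₀ zero_le ?_
    rw [← WithZero.exp_zero, WithZero.exp_le_exp]
    norm_num
  have e : dgl142 v ϖ h (2 * i)
      = diag129 (ϖ ^ i * ϖ ^ i) 1 (mul_ne_zero (pow_ne_zero i h) (pow_ne_zero i h))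
          one_ne_zero :=
    diag129_congr792 (by ring) rfl _ _ _ _
  unfold om142
  rw [e, whit_diag792 hctx hc (ϖ ^ i) (pow_ne_zero i h) hy g' hg',
    chi_scalar_pow792 hctx ϖ h i, norm_pow, norm_unif792 v hϖ]
  unfold qC142
  push_cast
  rfl

/-- **A2.03.8.6 REC-INERT**: the recursion at an inert place. -/
theorem recInertC792 : H142.RecInertC := by
  intro K _ _ D η W v hctx hin ϖ hϖ g' hg'
  have hc : InertCtx792 D.t D.n v := inertCtx_of792 (hctx.std.good_int v hctx.hv) hin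
  obtain ⟨ha, hb⟩ := (hctx.ind v hctx.hv).2 hin _ (isScalarUnif792 v hϖ)
  have hq : qC142 v ≠ 0 := by
    unfold qC142
    have : (Ideal.absNorm v.asIdeal : ℕ) ≠ 0 :=
      ne_of_gt (lt_trans Nat.zero_lt_one (NumberField.HeightOneSpectrum.one_lt_absNorm v))
    exact_mod_cast this
  refine ⟨?_, fun j => ?_⟩
  · have h1 : om142 W v ϖ (unif_ne_zero129 v hϖ) g' 1 = 0 :=
      om_odd792 hctx hc ϖ hϖ g' hg' 0
    rw [ha, h1, mul_zero, mul_zero, zero_mul]
  · rw [ha, hb, mul_zero, zero_mul]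
    rcases Nat.even_or_odd' j with ⟨i, rfl | rfl⟩
    · have e1 : 2 * i + 2 = 2 * (i + 1) := by ring
      rw [e1, om_even792 hctx hc ϖ hϖ g' hg' (i + 1), om_even792 hctx hc ϖ hϖ g' hg' i,
        pow_succ, pow_succ]
      have hqq : qC142 v * (qC142 v)⁻¹ = 1 := mul_inv_cancel₀ hq
      linear_combination ((qC142 v)⁻¹ ^ i
        * D.χT (locFin129 v (diag129 ϖ ϖ (unif_ne_zero129 v hϖ) (unif_ne_zero129 v hϖ))) ^ i
        * D.χT (locFin129 v (diag129 ϖ ϖ (unif_ne_zero129 v hϖ) (unif_ne_zero129 v hϖ)))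
        * W g') * hqq
    · have e1 : 2 * i + 1 + 2 = 2 * (i + 1) + 1 := by ring
      rw [e1, om_odd792 hctx hc ϖ hϖ g' hg' (i + 1), om_odd792 hctx hc ϖ hϖ g' hg' i,
        mul_zero, mul_zero, add_zero]

end Main

end Fermat.Agent.LT.A2.H792

end
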