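import Mathlib

/-!
# Row LT, tower A2, leaf A2.03.8.6 `H142.RecInertC` (helper792) -- part 1: the local norm form

OFF-MAIN.  Mathlib only.  `F` is a field with a valuation `val : Valuation F ℤᵐ⁰`, `ϖ` an element
of valuation `exp (-1)`, `t`, `n` integral with `t² - 4n` a unit, `N(a, b) = a² + t a b + n b²`.
If no integral pair `(a, b)` has `val (N(a, b)) = exp (-1)` (the place is INERT), then the form is
anisotropic modulo `ϖ`:

* `aniso_prim792` : `val (N(a, b)) = 1` for an integral pair with one unit coordinate;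
* `aniso_val792`  : `val (N(a, b)) = (max (val a) (val b)) ^ 2` for all `a`, `b`;
* `aniso_int792`  : `val (N(a, b)) = 1 → val a ≤ 1 ∧ val b ≤ 1`;
* `aniso_even792` : `val (N(a, b)) = exp (-j) → Even j`.

No Hensel lemma: if `val (N(a, b)) < exp (-1)` for a primitive pair, one of
`N(a + ϖ, b)`, `N(a, b + ϖ)` has valuation `exp (-1)` (the polar form is nondegenerate modulo `ϖ`).
-/

set_option autoImplicit false

open scoped WithZero

namespace Fermat.Agent.LT.A2.H792

variable {F : Type*} [Field F] (val : Valuation F ℤᵐ⁰)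

/-- The norm form `N(a, b) = a² + t a b + n b²`. -/
def nf792 (t n a b : F) : F := a ^ 2 + t * a * b + n * b ^ 2

theorem nf792_smul (t n c a b : F) : nf792 t n (c * a) (c * b) = c ^ 2 * nf792 t n a b := by
  unfold nf792; ring

theorem val_two_le792 : val (2 : F) ≤ 1 := by
  have h : (2 : F) = 1 + 1 := by norm_num
  rw [h]
  exact le_trans (Valuation.map_add _ _ _) (by simp)

theorem val_nf_le792 {t n a b : F} (ht : val t ≤ 1) (hn : val n ≤ 1) (ha : val a ≤ 1)
    (hb : val b ≤ 1) : val (nf792 t n a b) ≤ 1 := by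
  unfold nf792
  refine le_trans (Valuation.map_add _ _ _) (max_le (le_trans (Valuation.map_add _ _ _)
    (max_le ?_ ?_)) ?_)
  · rw [map_pow]; exact pow_le_one₀ zero_le ha
  · rw [map_mul, map_mul]
    exact mul_le_one₀ (mul_le_one₀ ht zero_le ha) zero_le hb
  · rw [map_mul, map_pow]
    exact mul_le_one₀ hn zero_le (pow_le_one₀ zero_le hb)

theorem lt_exp_neg_one_iff792 {y : ℤᵐ⁰} : y < WithZero.exp (-1 : ℤ) ↔ y ≤ WithZero.exp (-2 : ℤ) := by
  rw [← WithZero.lt_mul_exp_iff_le (by simp), ← WithZero.exp_add]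
  norm_num

theorem lt_one_iff792 {y : ℤᵐ⁰} : y < 1 ↔ y ≤ WithZero.exp (-1 : ℤ) := by
  rw [← WithZero.lt_mul_exp_iff_le (by simp), ← WithZero.exp_add]
  norm_num

/-- The hypothesis of inertness, in local form. -/
def LocInert792 (t n : F) : Prop :=
  ∀ a b : F, val a ≤ 1 → val b ≤ 1 → val (nf792 t n a b) ≠ WithZero.exp (-1 : ℤ)

variable {val}

/-- **Anisotropy modulo `ϖ`** at an inert place. -/
theorem aniso_prim792 {t n ϖ : F} (ht : val t ≤ 1) (hn : val n ≤ 1)
    (hd : val (t ^ 2 - 4 * n) = 1) (hϖ : val ϖ = WithZero.exp (-1 : ℤ))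
    (hin : LocInert792 val t n) {a b : F} (ha : val a ≤ 1) (hb : val b ≤ 1)
    (hab : val a = 1 ∨ val b = 1) : val (nf792 t n a b) = 1 := by
  by_contra hne
  have hN1 : val (nf792 t n a b) < 1 := lt_of_le_of_ne (val_nf_le792 val ht hn ha hb) hne
  have hNle : val (nf792 t n a b) ≤ WithZero.exp (-1 : ℤ) := (lt_one_iff792).mp hN1
  have hN2 : val (nf792 t n a b) < WithZero.exp (-1 : ℤ) :=
    lt_of_le_of_ne hNle (hin a b ha hb)
  have hϖ1 : val ϖ ≤ 1 := by
    rw [hϖ, ← WithZero.exp_zero, WithZero.exp_le_exp]; norm_num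
  have h2 : val (2 : F) ≤ 1 := val_two_le792 val
  have h4 : val (4 : F) ≤ 1 := by
    have : (4 : F) = 2 * 2 := by norm_num
    rw [this, map_mul]; exact mul_le_one₀ h2 zero_le h2
  -- the polar form is nondegenerate
  have hu : val (2 * a + t * b) = 1 ∨ val (t * a + 2 * n * b) = 1 := by
    by_contra hcon
    rw [not_or] at hcon
    have hu1 : val (2 * a + t * b) ≤ 1 := by
      refine le_trans (Valuation.map_add _ _ _) (max_le ?_ ?_)
      · rw [map_mul]; exact mul_le_one₀ h2 zero_le ha
      · rw [map_mul]; exact mul_le_one₀ ht zero_le hb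
    have hu2 : val (t * a + 2 * n * b) ≤ 1 := by
      refine le_trans (Valuation.map_add _ _ _) (max_le ?_ ?_)
      · rw [map_mul]; exact mul_le_one₀ ht zero_le ha
      · rw [map_mul, map_mul]; exact mul_le_one₀ (mul_le_one₀ h2 zero_le hn) zero_le hb
    have hu1' : val (2 * a + t * b) < 1 := lt_of_le_of_ne hu1 hcon.1
    have hu2' : val (t * a + 2 * n * b) < 1 := lt_of_le_of_ne hu2 hcon.2
    have hda : val ((t ^ 2 - 4 * n) * a) < 1 := by
      have e : (t ^ 2 - 4 * n) * a = t * (t * a + 2 * n * b) - 2 * n * (2 * a + t * b) := by ring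
      rw [e]
      refine lt_of_le_of_lt (Valuation.map_sub _ _ _) (max_lt ?_ ?_)
      · rw [map_mul]
        exact lt_of_le_of_lt (mul_le_of_le_one_left zero_le ht) hu2'
      · rw [map_mul, map_mul]
        exact lt_of_le_of_lt (mul_le_of_le_one_left zero_le (mul_le_one₀ h2 zero_le hn)) hu1'
    have hdb : val ((t ^ 2 - 4 * n) * b) < 1 := by
      have e : (t ^ 2 - 4 * n) * b = t * (2 * a + t * b) - 2 * (t * a + 2 * n * b) := by ring
      rw [e]
      refine lt_of_le_of_lt (Valuation.map_sub _ _ _) (max_lt ?_ ?_)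
      · rw [map_mul]
        exact lt_of_le_of_lt (mul_le_of_le_one_left zero_le ht) hu1'
      · rw [map_mul]
        exact lt_of_le_of_lt (mul_le_of_le_one_left zero_le h2) hu2'
    rw [map_mul, hd, one_mul] at hda hdb
    rcases hab with h | h
    · exact absurd h hda.ne
    · exact absurd h hdb.ne
  -- the perturbation
  have key : ∀ (a' b' u c : F), val a' ≤ 1 → val b' ≤ 1 → val u = 1 → val c ≤ 1 →
      nf792 t n a' b' = nf792 t n a b + ϖ * u + ϖ ^ 2 * c → False := by
    intro a' b' u c ha' hb' hu hc e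
    apply hin a' b' ha' hb'
    have h1 : val (ϖ * u) = WithZero.exp (-1 : ℤ) := by rw [map_mul, hu, mul_one, hϖ]
    have h2' : val (ϖ ^ 2 * c) < WithZero.exp (-1 : ℤ) := by
      rw [lt_exp_neg_one_iff792, map_mul, map_pow, hϖ, ← WithZero.exp_nsmul]
      refine le_trans (mul_le_of_le_one_right zero_le hc) ?_
      rw [WithZero.exp_le_exp]; norm_num
    have e' : nf792 t n a' b' = ϖ * u + (nf792 t n a b + ϖ ^ 2 * c) := by rw [e]; ring
    rw [e', Valuation.map_add_eq_of_lt_left, h1]
    rw [h1]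
    exact lt_of_le_of_lt (Valuation.map_add _ _ _) (max_lt hN2 h2')
  rcases hu with hu | hu
  · refine key (a + ϖ) b (2 * a + t * b) 1 ?_ hb hu (by simp) (by unfold nf792; ring)
    exact le_trans (Valuation.map_add _ _ _) (max_le ha hϖ1)
  · refine key a (b + ϖ) (t * a + 2 * n * b) n ha ?_ hu hn (by unfold nf792; ring)
    exact le_trans (Valuation.map_add _ _ _) (max_le hb hϖ1)

/-- **The valuation of the norm form** at an inert place. -/
theorem aniso_val792 {t n ϖ : F} (ht : val t ≤ 1) (hn : val n ≤ 1)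
    (hd : val (t ^ 2 - 4 * n) = 1) (hϖ : val ϖ = WithZero.exp (-1 : ℤ))
    (hin : LocInert792 val t n) (a b : F) :
    val (nf792 t n a b) = (max (val a) (val b)) ^ 2 := by
  have main : ∀ a b : F, val b ≤ val a → val (nf792 t n a b) = (val a) ^ 2 ∧
      val (nf792 t n b a) = (val a) ^ 2 := by
    intro a b hba
    by_cases ha0 : a = 0
    · have hb0 : b = 0 := by
        rw [ha0, map_zero, le_zero_iff, map_eq_zero] at hba
        exact hba
      subst ha0; subst hb0
      simp [nf792]
    have hva : val a ≠ 0 := by rwa [Ne, map_eq_zero]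
    have hq : val (b / a) ≤ 1 := by
      rw [map_div₀]; exact div_le_one_of_le₀ hba zero_le
    have h1 : val (1 : F) ≤ 1 := by simp
    have e1 : nf792 t n a b = a ^ 2 * nf792 t n 1 (b / a) := by
      rw [← nf792_smul, mul_one, mul_div_cancel₀ b ha0]
    have e2 : nf792 t n b a = a ^ 2 * nf792 t n (b / a) 1 := by
      rw [← nf792_smul, mul_one, mul_div_cancel₀ b ha0]
    constructor
    · rw [e1, map_mul, map_pow,
        aniso_prim792 ht hn hd hϖ hin h1 hq (Or.inl (map_one _)), mul_one]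
    · rw [e2, map_mul, map_pow,
        aniso_prim792 ht hn hd hϖ hin hq h1 (Or.inr (map_one _)), mul_one]
  rcases le_total (val b) (val a) with h | h
  · rw [max_eq_left h]; exact (main a b h).1
  · rw [max_eq_right h]; exact (main b a h).2

theorem sq_eq_one_iff792 {x : ℤᵐ⁰} : x ^ 2 = 1 ↔ x = 1 := by
  constructor
  · intro h
    rcases lt_trichotomy x 1 with hx | hx | hx
    · exfalso
      have : x ^ 2 < 1 := pow_lt_one₀ zero_le hx (by norm_num)
      exact this.ne h
    · exact hx
    · exfalso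
      have : 1 < x ^ 2 := one_lt_pow₀ hx (by norm_num)
      exact this.ne' h
  · intro h; rw [h, one_pow]

/-- An element of the local torus of norm a unit is integral. -/
theorem aniso_int792 {t n ϖ : F} (ht : val t ≤ 1) (hn : val n ≤ 1)
    (hd : val (t ^ 2 - 4 * n) = 1) (hϖ : val ϖ = WithZero.exp (-1 : ℤ))
    (hin : LocInert792 val t n) {a b : F} (h : val (nf792 t n a b) = 1) :
    val a ≤ 1 ∧ val b ≤ 1 := by
  rw [aniso_val792 ht hn hd hϖ hin a b, sq_eq_one_iff792] at h
  exact ⟨h ▸ le_max_left _ _, h ▸ le_max_right _ _⟩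

/-- The norm of an element of the local torus has even valuation. -/
theorem aniso_even792 {t n ϖ : F} (ht : val t ≤ 1) (hn : val n ≤ 1)
    (hd : val (t ^ 2 - 4 * n) = 1) (hϖ : val ϖ = WithZero.exp (-1 : ℤ))
    (hin : LocInert792 val t n) {a b : F} {j : ℤ}
    (h : val (nf792 t n a b) = WithZero.exp j) : Even j := by
  rw [aniso_val792 ht hn hd hϖ hin a b] at h
  set x : ℤᵐ⁰ := max (val a) (val b) with hx
  have hx0 : x ≠ 0 := by
    intro h0
    rw [h0] at h
    simp only [ne_eq, OfNat.ofNat_ne_zero, not_false_eq_true, zero_pow] at h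
    exact WithZero.exp_ne_zero h.symm
  obtain ⟨k, hk⟩ : ∃ k : ℤ, x = WithZero.exp k := ⟨WithZero.log x, (WithZero.exp_log hx0).symm⟩
  rw [hk, ← WithZero.exp_nsmul, WithZero.exp_inj] at h
  exact ⟨k, by rw [← h]; simp [two_mul]⟩

end Fermat.Agent.LT.A2.H792
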