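import Fermat.Agent.LT.A2.H792.Local

/-!
# Row LT, tower A2, leaf A2.03.8.6 `H142.RecInertC` (helper792) -- part 3: diagonal elements

OFF-MAIN.  The local diagonal matrices as adelic matrices, their determinants, the certificates
`WL.IsDiagSLA`, `WL.IsDiagOneA`, partners trivial at `v`.  Complete proofs, nothing assumed.
-/

set_option autoImplicit false

open IsDedekindDomain NumberField AutomorphicForm MeasureTheory
open scoped MatrixGroups

noncomputable section

namespace Fermat.Agent.LT.A2.H792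

open Fermat.Agent.LT.H556 Fermat.Agent.LT.H556.A0 Fermat.Agent.LT.H129 Fermat.Agent.LT.A2
open Fermat.Agent.LT.A2.H593

variable {K : Type} [Field K] [NumberField K]

/-! ## Local diagonal matrices -/

section LocalDiag

variable {F : Type*} [Field F]

theorem diag129_congr792 {x x' y y' : F} (hx : x = x') (hy : y = y') (h1 : x ≠ 0) (h2 : y ≠ 0)
    (h1' : x' ≠ 0) (h2' : y' ≠ 0) : diag129 x y h1 h2 = diag129 x' y' h1' h2' := by
  subst hx; subst hy; rfl

theorem coe_diag129_792 (x y : F) (hx : x ≠ 0) (hy : y ≠ 0) :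
    ((diag129 x y hx hy : GL (Fin 2) F) : Matrix (Fin 2) (Fin 2) F) = !![x, 0; 0, y] := rfl

theorem diag129_mul792 (x y x' y' : F) (hx : x ≠ 0) (hy : y ≠ 0) (hx' : x' ≠ 0) (hy' : y' ≠ 0) :
    diag129 x y hx hy * diag129 x' y' hx' hy'
      = diag129 (x * x') (y * y') (mul_ne_zero hx hx') (mul_ne_zero hy hy') := by
  apply ext_mat129
  rw [Matrix.GeneralLinearGroup.coe_mul, coe_diag129_792, coe_diag129_792, coe_diag129_792]
  ext i j
  fin_cases i <;> fin_cases j <;> simp [Matrix.mul_apply, Fin.sum_univ_two]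

theorem diag129_one792 : diag129 (1 : F) 1 one_ne_zero one_ne_zero = 1 := by
  apply ext_mat129
  rw [coe_diag129_792]
  ext i j
  fin_cases i <;> fin_cases j <;> simp

theorem diag129_inv792 (x y : F) (hx : x ≠ 0) (hy : y ≠ 0) :
    (diag129 x y hx hy)⁻¹ = diag129 x⁻¹ y⁻¹ (inv_ne_zero hx) (inv_ne_zero hy) := by
  rw [inv_eq_iff_mul_eq_one, diag129_mul792,
    diag129_congr792 (mul_inv_cancel₀ hx) (mul_inv_cancel₀ hy) _ _ one_ne_zero one_ne_zero,
    diag129_one792]

theorem det_diag129_792 (x y : F) (hx : x ≠ 0) (hy : y ≠ 0) :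
    ((diag129 x y hx hy : GL (Fin 2) F) : Matrix (Fin 2) (Fin 2) F).det = x * y := by
  rw [coe_diag129_792, Matrix.det_fin_two_of]
  ring

end LocalDiag

/-! ## Determinants of local elements -/

/-- The determinant of a local element is the local idele of its determinant. -/
theorem det_locFin792 (v : HeightOneSpectrum (𝓞 K)) (x : GL (Fin 2) (v.adicCompletion K))
    (c : v.adicCompletion K) (hc : c ≠ 0)
    (h : (x : Matrix (Fin 2) (Fin 2) (v.adicCompletion K)).det = c) :
    Matrix.GeneralLinearGroup.det (locFin129 v x) = idl792 v c hc := by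
  apply idele_ext792
  · intro w
    rw [det_inf792, infCompHom129_locFin129, idl792_inf]
    simp
  · intro v'
    rw [det_fin792]
    by_cases hv : v' = v
    · subst hv
      rw [finComp_locFin129, idl792_same, h]
    · rw [← coe_finCompHom129, finCompHom129_locFin129_of_ne v _ hv, idl792_of_ne v _ _ hv]
      simp

/-- The adelic matrix of a local diagonal matrix. -/
theorem coe_locFin_diag792 (v : HeightOneSpectrum (𝓞 K)) (x y : v.adicCompletion K)
    (hx : x ≠ 0) (hy : y ≠ 0) :
    ((locFin129 v (diag129 x y hx hy) : G K) : Matrix (Fin 2) (Fin 2) (Adl K))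
      = !![(idl792 v x hx : Adl K), 0; 0, (idl792 v y hy : Adl K)] := by
  apply adeleMatrix_ext129
  · intro w
    rw [coe_locFin129, locMat129_map_inf]
    ext i j
    fin_cases i <;> fin_cases j <;>
      simp [idl792_inf, adl_zero_inf792]
  · intro v'
    rw [coe_locFin129]
    by_cases hv : v' = v
    · subst hv
      rw [locMat129_map_same, coe_diag129_792]
      ext i j
      fin_cases i <;> fin_cases j <;>
        simp [idl792_same, adl_zero_fin792]
    · rw [locMat129_map_of_ne v _ hv]
      ext i j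
      fin_cases i <;> fin_cases j <;>
        simp [idl792_of_ne v _ _ hv, adl_zero_fin792]

theorem isDiagSLA792 (v : HeightOneSpectrum (𝓞 K)) (x : v.adicCompletion K) (hx : x ≠ 0) :
    WL.IsDiagSLA (locFin129 v (diag129 x x⁻¹ hx (inv_ne_zero hx))) (idl792 v x hx) := by
  unfold WL.IsDiagSLA
  rw [coe_locFin_diag792, idl792_inv]

theorem isDiagOneA792 (v : HeightOneSpectrum (𝓞 K)) (x : v.adicCompletion K) (hx : x ≠ 0) :
    WL.IsDiagOneA (locFin129 v (diag129 1 x one_ne_zero hx)) (idl792 v x hx) := by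
  unfold WL.IsDiagOneA
  rw [coe_locFin_diag792, idl792_one, Units.val_one]

/-- The scalar local elements are in the torus. -/
theorem inTorus_scalar792 (t n : K) (v : HeightOneSpectrum (𝓞 K)) (y : v.adicCompletion K)
    (hy : y ≠ 0) : InTorus t n (locFin129 v (diag129 y y hy hy)) := by
  apply inTorus_locFin792 t n v _ y 0
  rw [coe_diag129_792]
  ext i j
  fin_cases i <;> fin_cases j <;> simp [torMat]

theorem isScalarUnif792 (v : HeightOneSpectrum (𝓞 K)) {ϖ : v.adicCompletion K}
    (hϖ : Valued.v ϖ = WithZero.exp (-1 : ℤ)) :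
    IsScalarUniformizerAt v
      (locFin129 v (diag129 ϖ ϖ (unif_ne_zero129 v hϖ) (unif_ne_zero129 v hϖ))) := by
  refine ⟨isLocalAtFin_locFin129 v _, ϖ, hϖ, ?_⟩
  rw [finComp_locFin129, coe_diag129_792]
  ext i j
  fin_cases i <;> fin_cases j <;> simp

/-! ## Partners trivial at `v` -/

/-- An element of `GL₂(𝔸_K)⁺` which is trivial at `v` has an admissible partner which is trivial
at `v`. -/
theorem exists_adm_triv792 {t n : K} {v : HeightOneSpectrum (𝓞 K)} {g : G K}
    (hg : TrivAtFin v g) (hG : InGPlus t n g) :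
    ∃ m : G K, Adm t n g m ∧ TrivAtFin v m := by
  obtain ⟨m, ⟨A, B, hAB⟩, hdet⟩ := hG
  set lam : G K := locFin129 v (finCompHom129 v m) with hlam
  have hlamT : InTorus t n lam := by
    apply inTorus_locFin792 t n v _ (A.2 v) (B.2 v)
    rw [coe_finCompHom129]
    exact finComp_torMat792 v hAB
  have hdet1 : (finComp v m).det = 1 := by
    rw [← det_fin792, ← hdet, det_fin792, hg]
    simp
  have hlamdet : Matrix.GeneralLinearGroup.det lam = 1 := by
    rw [hlam, det_locFin792 v _ 1 one_ne_zero (by rw [coe_finCompHom129]; exact hdet1),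
      idl792_one]
  refine ⟨lam⁻¹ * m, ⟨inTorus_mul593 (inTorus_inv593 hlamT) ⟨A, B, hAB⟩, ?_⟩, ?_⟩
  · rw [map_mul, map_inv, hlamdet, inv_one, one_mul, hdet]
  · rw [trivAtFin_iff129, map_mul, map_inv, hlam, finCompHom129_locFin129, inv_mul_cancel]

end Fermat.Agent.LT.A2.H792

end
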