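import Fermat.Agent.LT.A2.H142.HeckeSpec
import Fermat.Agent.LT.A2.H593.Torus
import Fermat.Agent.LT.A2.H792.Aniso

/-!
# Row LT, tower A2, leaf A2.03.8.6 `H142.RecInertC` (helper792) -- part 2: adelic bookkeeping

OFF-MAIN.  Components of determinants, the torus at one finite place, ideles supported at one
finite place and their module, the consequences of `WL.IsInertAt` for the torus.
Complete proofs, nothing assumed.
-/

set_option autoImplicit false

open IsDedekindDomain NumberField AutomorphicForm MeasureTheory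
open scoped MatrixGroups

noncomputable section

namespace Fermat.Agent.LT.A2.H792

open Fermat.Agent.LT.H556 Fermat.Agent.LT.H556.A0 Fermat.Agent.LT.H129 Fermat.Agent.LT.A2
open Fermat.Agent.LT.A2.H593

variable {K : Type} [Field K] [NumberField K]

/-! ## Components of determinants -/

theorem det_fin792 (v : HeightOneSpectrum (𝓞 K)) (m : G K) :
    ((Matrix.GeneralLinearGroup.det m : (Adl K)ˣ) : Adl K).2 v = (finComp v m).det := by
  rw [Matrix.GeneralLinearGroup.val_det_apply]
  have h := RingHom.map_det (evF129 v) (m : Matrix (Fin 2) (Fin 2) (Adl K))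
  rw [evF129_apply] at h
  rw [h]
  rfl

theorem det_inf792 (w : InfinitePlace K) (m : G K) :
    ((Matrix.GeneralLinearGroup.det m : (Adl K)ˣ) : Adl K).1 w
      = ((infCompHom129 w m : GL (Fin 2) w.Completion) :
          Matrix (Fin 2) (Fin 2) w.Completion).det := by
  rw [Matrix.GeneralLinearGroup.val_det_apply]
  have h := RingHom.map_det (evI129 w) (m : Matrix (Fin 2) (Fin 2) (Adl K))
  rw [evI129_apply] at h
  rw [h]
  rfl

/-- Two ideles with the same components are equal. -/
theorem idele_ext792 {a b : (Adl K)ˣ}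
    (hI : ∀ w : InfinitePlace K, (a : Adl K).1 w = (b : Adl K).1 w)
    (hF : ∀ v : HeightOneSpectrum (𝓞 K), (a : Adl K).2 v = (b : Adl K).2 v) : a = b :=
  Units.ext (adele_ext129 hI hF)

/-! ## Ideles supported at one finite place -/

/-- The idele with component `x` at `v` and `1` at every other place. -/
def idl792 (v : HeightOneSpectrum (𝓞 K)) (x : v.adicCompletion K) (hx : x ≠ 0) : (Adl K)ˣ :=
  Matrix.GeneralLinearGroup.det (locFin129 v (diag129 x 1 hx one_ne_zero))

theorem idl792_same (v : HeightOneSpectrum (𝓞 K)) (x : v.adicCompletion K) (hx : x ≠ 0) :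
    (idl792 v x hx : Adl K).2 v = x := by
  unfold idl792
  rw [det_fin792, finComp_locFin129]
  simp [diag129]

theorem idl792_of_ne (v : HeightOneSpectrum (𝓞 K)) (x : v.adicCompletion K) (hx : x ≠ 0)
    {v' : HeightOneSpectrum (𝓞 K)} (h : v' ≠ v) : (idl792 v x hx : Adl K).2 v' = 1 := by
  unfold idl792
  rw [det_fin792, ← coe_finCompHom129, finCompHom129_locFin129_of_ne v _ h]
  simp

theorem idl792_inf (v : HeightOneSpectrum (𝓞 K)) (x : v.adicCompletion K) (hx : x ≠ 0)
    (w : InfinitePlace K) : (idl792 v x hx : Adl K).1 w = 1 := by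
  unfold idl792
  rw [det_inf792, infCompHom129_locFin129]
  simp

theorem adl_mul_inf792 (a b : Adl K) (w : InfinitePlace K) :
    (a * b).1 w = a.1 w * b.1 w := rfl

theorem adl_mul_fin792 (a b : Adl K) (v : HeightOneSpectrum (𝓞 K)) :
    (a * b).2 v = a.2 v * b.2 v := rfl

theorem adl_add_inf792 (a b : Adl K) (w : InfinitePlace K) :
    (a + b).1 w = a.1 w + b.1 w := rfl

theorem adl_add_fin792 (a b : Adl K) (v : HeightOneSpectrum (𝓞 K)) :
    (a + b).2 v = a.2 v + b.2 v := rfl

theorem adl_one_inf792 (w : InfinitePlace K) : (1 : Adl K).1 w = 1 := rfl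

theorem adl_one_fin792 (v : HeightOneSpectrum (𝓞 K)) : (1 : Adl K).2 v = 1 := rfl

theorem adl_zero_inf792 (w : InfinitePlace K) : (0 : Adl K).1 w = 0 := rfl

theorem adl_zero_fin792 (v : HeightOneSpectrum (𝓞 K)) : (0 : Adl K).2 v = 0 := rfl

theorem idl792_congr (v : HeightOneSpectrum (𝓞 K)) {x y : v.adicCompletion K} (h : x = y)
    (hx : x ≠ 0) (hy : y ≠ 0) : idl792 v x hx = idl792 v y hy := by
  subst h; rfl

theorem idl792_mul (v : HeightOneSpectrum (𝓞 K)) (x y : v.adicCompletion K) (hx : x ≠ 0)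
    (hy : y ≠ 0) : idl792 v (x * y) (mul_ne_zero hx hy) = idl792 v x hx * idl792 v y hy := by
  apply idele_ext792
  · intro w
    rw [Units.val_mul, adl_mul_inf792, idl792_inf, idl792_inf, idl792_inf, mul_one]
  · intro v'
    rw [Units.val_mul, adl_mul_fin792]
    by_cases h : v' = v
    · subst h
      rw [idl792_same, idl792_same, idl792_same]
    · rw [idl792_of_ne v _ _ h, idl792_of_ne v _ _ h, idl792_of_ne v _ _ h, mul_one]

theorem idl792_one (v : HeightOneSpectrum (𝓞 K)) :
    idl792 v (1 : v.adicCompletion K) one_ne_zero = 1 := by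
  apply idele_ext792
  · intro w
    rw [idl792_inf]; rfl
  · intro v'
    by_cases h : v' = v
    · subst h
      rw [idl792_same]; rfl
    · rw [idl792_of_ne v _ _ h]; rfl

theorem idl792_inv (v : HeightOneSpectrum (𝓞 K)) (x : v.adicCompletion K) (hx : x ≠ 0) :
    idl792 v x⁻¹ (inv_ne_zero hx) = (idl792 v x hx)⁻¹ := by
  apply eq_inv_of_mul_eq_one_left
  rw [← idl792_mul, idl792_congr v (inv_mul_cancel₀ hx) _ one_ne_zero, idl792_one]

theorem idl792_pow (v : HeightOneSpectrum (𝓞 K)) (x : v.adicCompletion K) (hx : x ≠ 0) (k : ℕ) :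
    idl792 v (x ^ k) (pow_ne_zero k hx) = idl792 v x hx ^ k := by
  induction k with
  | zero =>
    exact (idl792_congr v (pow_zero x) _ one_ne_zero).trans
      ((idl792_one v).trans (pow_zero _).symm)
  | succ k ih =>
    calc idl792 v (x ^ (k + 1)) (pow_ne_zero (k + 1) hx)
        = idl792 v (x ^ k * x) (mul_ne_zero (pow_ne_zero k hx) hx) :=
          idl792_congr v (pow_succ x k) _ _
      _ = idl792 v (x ^ k) (pow_ne_zero k hx) * idl792 v x hx := idl792_mul v _ _ _ _
      _ = idl792 v x hx ^ (k + 1) := by rw [ih, pow_succ]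

theorem isIdeleAt_idl792 (v : HeightOneSpectrum (𝓞 K)) (x : v.adicCompletion K) (hx : x ≠ 0) :
    IsIdeleAt v (idl792 v x hx) :=
  ⟨fun w => idl792_inf v x hx w, fun _ h => idl792_of_ne v x hx h⟩

/-- **The module of an idele supported at `v`.** -/
theorem adNorm_idl792 (v : HeightOneSpectrum (𝓞 K)) (x : v.adicCompletion K) (hx : x ≠ 0) :
    T1.adNorm K (idl792 v x hx : Adl K) = ‖x‖ := by
  unfold T1.adNorm
  have h1 : (∏ w : InfinitePlace K, ‖(idl792 v x hx : Adl K).1 w‖ ^ w.mult) = 1 := by
    apply Finset.prod_eq_one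
    intro w _
    rw [idl792_inf, norm_one, one_pow]
  have h2 : (∏ᶠ v' : HeightOneSpectrum (𝓞 K), ‖(idl792 v x hx : Adl K).2 v'‖) = ‖x‖ := by
    rw [finprod_eq_single _ v]
    · rw [idl792_same]
    · intro v' h
      rw [idl792_of_ne v _ _ h, norm_one]
  rw [h1, h2, one_mul]

theorem norm_unif792 (v : HeightOneSpectrum (𝓞 K)) {ϖ : v.adicCompletion K}
    (hϖ : Valued.v ϖ = WithZero.exp (-1 : ℤ)) :
    ‖ϖ‖ = ((Ideal.absNorm v.asIdeal : ℕ) : ℝ)⁻¹ := by
  rw [NumberField.FinitePlace.norm_def, hϖ,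
    WithZeroMulInt.toNNReal_neg_apply _ WithZero.exp_ne_zero]
  have : Multiplicative.toAdd (WithZero.unzero (WithZero.exp_ne_zero (a := (-1 : ℤ)))) = -1 := rfl
  rw [this]
  simp

/-! ## The torus at the place `v` -/

/-- The component at `v` of an element of the torus. -/
theorem finComp_torMat792 {t n : K} (v : HeightOneSpectrum (𝓞 K)) {m : G K} {A B : Adl K}
    (h : (m : Matrix (Fin 2) (Fin 2) (Adl K))
      = torMat (algebraMap K (Adl K) t) (algebraMap K (Adl K) n) A B) :
    finComp v m = torMat (algebraMap K (v.adicCompletion K) t)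
      (algebraMap K (v.adicCompletion K) n) (A.2 v) (B.2 v) := by
  rw [← coe_finCompHom129, coe_finCompHom129_map, h, torMat_map593]
  rfl

/-- The determinant of the component at `v` of an element of the torus. -/
theorem det_finComp_torMat792 {t n : K} (v : HeightOneSpectrum (𝓞 K)) {m : G K} {A B : Adl K}
    (h : (m : Matrix (Fin 2) (Fin 2) (Adl K))
      = torMat (algebraMap K (Adl K) t) (algebraMap K (Adl K) n) A B) :
    (finComp v m).det = nf792 (algebraMap K (v.adicCompletion K) t)
      (algebraMap K (v.adicCompletion K) n) (A.2 v) (B.2 v) := by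
  rw [finComp_torMat792 v h, torMat_det593]
  rfl

/-- The adele with component `a` at `v` and `1` at every other place. -/
def adOne792 (v : HeightOneSpectrum (𝓞 K)) (a : v.adicCompletion K) : Adl K :=
  (1, finSingle129 v true a)

/-- The adele with component `b` at `v` and `0` at every other place. -/
def adZero792 (v : HeightOneSpectrum (𝓞 K)) (b : v.adicCompletion K) : Adl K :=
  (0, finSingle129 v false b)

theorem adOne792_inf (v : HeightOneSpectrum (𝓞 K)) (a : v.adicCompletion K)
    (w : InfinitePlace K) : evI129 w (adOne792 v a) = 1 := rfl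

theorem adZero792_inf (v : HeightOneSpectrum (𝓞 K)) (b : v.adicCompletion K)
    (w : InfinitePlace K) : evI129 w (adZero792 v b) = 0 := rfl

theorem adOne792_same (v : HeightOneSpectrum (𝓞 K)) (a : v.adicCompletion K) :
    evF129 v (adOne792 v a) = a := finSingle129_same v true a

theorem adZero792_same (v : HeightOneSpectrum (𝓞 K)) (b : v.adicCompletion K) :
    evF129 v (adZero792 v b) = b := finSingle129_same v false b

theorem adOne792_of_ne (v : HeightOneSpectrum (𝓞 K)) (a : v.adicCompletion K)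
    {v' : HeightOneSpectrum (𝓞 K)} (h : v' ≠ v) : evF129 v' (adOne792 v a) = 1 := by
  show finSingle129 v true a v' = 1
  rw [finSingle129_of_ne v _ _ h]
  rfl

theorem adZero792_of_ne (v : HeightOneSpectrum (𝓞 K)) (b : v.adicCompletion K)
    {v' : HeightOneSpectrum (𝓞 K)} (h : v' ≠ v) : evF129 v' (adZero792 v b) = 0 := by
  show finSingle129 v false b v' = 0
  rw [finSingle129_of_ne v _ _ h]
  rfl

/-- A local element of the torus at `v` is an element of the adelic torus. -/
theorem inTorus_locFin792 (t n : K) (v : HeightOneSpectrum (𝓞 K))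
    (x : GL (Fin 2) (v.adicCompletion K)) (a b : v.adicCompletion K)
    (hx : (x : Matrix (Fin 2) (Fin 2) (v.adicCompletion K))
      = torMat (algebraMap K (v.adicCompletion K) t) (algebraMap K (v.adicCompletion K) n) a b) :
    InTorus t n (locFin129 v x) := by
  refine ⟨adOne792 v a, adZero792 v b, ?_⟩
  apply adeleMatrix_ext129
  · intro w
    rw [coe_locFin129, locMat129_map_inf, torMat_map593, adOne792_inf, adZero792_inf,
      torMat_one593]
  · intro v'
    rw [coe_locFin129, torMat_map593]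
    by_cases h : v' = v
    · subst h
      rw [locMat129_map_same, hx, adOne792_same, adZero792_same]
      rfl
    · rw [locMat129_map_of_ne v _ h, adOne792_of_ne v _ h, adZero792_of_ne v _ h, torMat_one593]

theorem isIntegralAt_locFin792 (v : HeightOneSpectrum (𝓞 K))
    (x : GL (Fin 2) (v.adicCompletion K)) :
    IsIntegralAt v (locFin129 v x) ↔ IsInt129 (v.adicCompletionIntegers K) x := by
  rw [← isInt129_finCompHom_iff, finCompHom129_locFin129]

theorem torMat_int792 (v : HeightOneSpectrum (𝓞 K)) {t n a b : v.adicCompletion K}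
    (ht : Valued.v t ≤ 1) (hn : Valued.v n ≤ 1) (ha : Valued.v a ≤ 1) (hb : Valued.v b ≤ 1)
    (i j : Fin 2) : torMat t n a b i j ∈ v.adicCompletionIntegers K := by
  have ht' : t ∈ v.adicCompletionIntegers K := ht
  have hn' : n ∈ v.adicCompletionIntegers K := hn
  have ha' : a ∈ v.adicCompletionIntegers K := ha
  have hb' : b ∈ v.adicCompletionIntegers K := hb
  fin_cases i <;> fin_cases j
  · simpa [torMat] using ha'
  · simpa [torMat] using (v.adicCompletionIntegers K).mul_mem _ _ hn' hb'
  · simpa [torMat] using hb'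
  · simpa [torMat] using (v.adicCompletionIntegers K).add_mem _ _ ha'
      ((v.adicCompletionIntegers K).mul_mem _ _ ht' hb')

/-! ## The inert context -/

/-- The local hypotheses at an inert place `v ∤ π.level`: `t`, `n` integral, `t² - 4n` a unit,
and no integral element of the local torus has norm a uniformiser. -/
structure InertCtx792 (t n : K) (v : HeightOneSpectrum (𝓞 K)) : Prop where
  ht : Valued.v (algebraMap K (v.adicCompletion K) t) ≤ 1
  hn : Valued.v (algebraMap K (v.adicCompletion K) n) ≤ 1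
  hd : Valued.v ((algebraMap K (v.adicCompletion K) t) ^ 2
    - 4 * algebraMap K (v.adicCompletion K) n) = 1
  inert : LocInert792 (Valued.v : Valuation (v.adicCompletion K) (WithZero (Multiplicative ℤ)))
    (algebraMap K (v.adicCompletion K) t) (algebraMap K (v.adicCompletion K) n)

theorem inertCtx_of792 {t n : K} {v : HeightOneSpectrum (𝓞 K)}
    (hgi : Valued.v (algebraMap K (v.adicCompletion K) t) ≤ 1 ∧
      Valued.v (algebraMap K (v.adicCompletion K) n) ≤ 1 ∧
      Valued.v (algebraMap K (v.adicCompletion K) (t ^ 2 - 4 * n)) = 1)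
    (hin : WL.IsInertAt t n v) : InertCtx792 t n v := by
  obtain ⟨ht, hn, hd⟩ := hgi
  refine ⟨ht, hn, ?_, ?_⟩
  · rw [map_sub, map_pow, map_mul, map_ofNat] at hd
    exact hd
  · intro a b ha hb hval
    have hdet : (torMat (algebraMap K (v.adicCompletion K) t)
        (algebraMap K (v.adicCompletion K) n) a b).det ≠ 0 := by
      rw [torMat_det593]
      intro h0
      have h0' : nf792 (algebraMap K (v.adicCompletion K) t)
          (algebraMap K (v.adicCompletion K) n) a b = 0 := h0
      rw [h0', map_zero] at hval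
      exact WithZero.exp_ne_zero hval.symm
    refine hin (locFin129 v (Matrix.GeneralLinearGroup.mkOfDetNeZero _ hdet))
      (inTorus_locFin792 t n v _ a b rfl) (isLocalAtFin_locFin129 v _) ?_ ?_
    · rw [isIntegralAt_locFin792]
      intro i j
      exact torMat_int792 v ht hn ha hb i j
    · rw [finComp_locFin129]
      show Valued.v (torMat (algebraMap K (v.adicCompletion K) t)
        (algebraMap K (v.adicCompletion K) n) a b).det = _
      rw [torMat_det593]
      exact hval

/-- At an inert place the elements of the norm-one torus are integral. -/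
theorem isIntegralAt_of_inTorus1_792 {t n : K} {v : HeightOneSpectrum (𝓞 K)}
    (hc : InertCtx792 t n v) {m : G K} (hm : InTorus1 t n m) : IsIntegralAt v m := by
  obtain ⟨ϖ, hϖ⟩ := exists_unif129 v
  obtain ⟨⟨A, B, hAB⟩, hdet⟩ := hm
  have h1 : (finComp v m).det = 1 := by
    rw [← det_fin792, hdet]
    rfl
  rw [det_finComp_torMat792 v hAB] at h1
  have h2 : Valued.v (nf792 (algebraMap K (v.adicCompletion K) t)
      (algebraMap K (v.adicCompletion K) n) (A.2 v) (B.2 v)) = 1 := by
    rw [h1, map_one]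
  obtain ⟨ha, hb⟩ := aniso_int792 hc.ht hc.hn hc.hd hϖ hc.inert h2
  intro i j
  rw [finComp_torMat792 v hAB]
  exact torMat_int792 v hc.ht hc.hn ha hb i j

/-- At an inert place an element whose determinant at `v` has odd valuation is not in
`GL₂(𝔸_K)⁺`. -/
theorem not_inGPlus_of_odd792 {t n : K} {v : HeightOneSpectrum (𝓞 K)}
    (hc : InertCtx792 t n v) {g : G K} {j : ℤ} (hj : ¬ Even j)
    (hg : Valued.v (finComp v g).det = WithZero.exp j) : ¬ InGPlus t n g := by
  obtain ⟨ϖ, hϖ⟩ := exists_unif129 v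
  rintro ⟨m, ⟨A, B, hAB⟩, hdet⟩
  have h1 : (finComp v g).det = (finComp v m).det := by
    rw [← det_fin792, ← det_fin792, hdet]
  rw [h1, det_finComp_torMat792 v hAB] at hg
  exact hj (aniso_even792 hc.ht hc.hn hc.hd hϖ hc.inert hg)

/-! ## The action on vectors, componentwise -/

theorem actV_agree792 (v : HeightOneSpectrum (𝓞 K)) (m : G K) {ξ ξ' : Adl K × Adl K}
    (h : WL.AgreeOffFin v ξ ξ') : WL.AgreeOffFin v (actV m ξ) (actV m ξ') := by
  obtain ⟨hI, hF⟩ := h
  refine ⟨fun w => ⟨?_, ?_⟩, fun v' hv' => ⟨?_, ?_⟩⟩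
  · show ((m : Matrix (Fin 2) (Fin 2) (Adl K)) 0 0).1 w * ξ.1.1 w
        + ((m : Matrix (Fin 2) (Fin 2) (Adl K)) 0 1).1 w * ξ.2.1 w
      = ((m : Matrix (Fin 2) (Fin 2) (Adl K)) 0 0).1 w * ξ'.1.1 w
        + ((m : Matrix (Fin 2) (Fin 2) (Adl K)) 0 1).1 w * ξ'.2.1 w
    rw [(hI w).1, (hI w).2]
  · show ((m : Matrix (Fin 2) (Fin 2) (Adl K)) 1 0).1 w * ξ.1.1 w
        + ((m : Matrix (Fin 2) (Fin 2) (Adl K)) 1 1).1 w * ξ.2.1 w
      = ((m : Matrix (Fin 2) (Fin 2) (Adl K)) 1 0).1 w * ξ'.1.1 w
        + ((m : Matrix (Fin 2) (Fin 2) (Adl K)) 1 1).1 w * ξ'.2.1 w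
    rw [(hI w).1, (hI w).2]
  · show ((m : Matrix (Fin 2) (Fin 2) (Adl K)) 0 0).2 v' * ξ.1.2 v'
        + ((m : Matrix (Fin 2) (Fin 2) (Adl K)) 0 1).2 v' * ξ.2.2 v'
      = ((m : Matrix (Fin 2) (Fin 2) (Adl K)) 0 0).2 v' * ξ'.1.2 v'
        + ((m : Matrix (Fin 2) (Fin 2) (Adl K)) 0 1).2 v' * ξ'.2.2 v'
    rw [(hF v' hv').1, (hF v' hv').2]
  · show ((m : Matrix (Fin 2) (Fin 2) (Adl K)) 1 0).2 v' * ξ.1.2 v'
        + ((m : Matrix (Fin 2) (Fin 2) (Adl K)) 1 1).2 v' * ξ.2.2 v'
      = ((m : Matrix (Fin 2) (Fin 2) (Adl K)) 1 0).2 v' * ξ'.1.2 v'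
        + ((m : Matrix (Fin 2) (Fin 2) (Adl K)) 1 1).2 v' * ξ'.2.2 v'
    rw [(hF v' hv').1, (hF v' hv').2]

theorem actV_integral792 (v : HeightOneSpectrum (𝓞 K)) {m : G K} (hm : IsIntegralAt v m)
    {ξ : Adl K × Adl K} (h : WL.VecIntegralAt v ξ) : WL.VecIntegralAt v (actV m ξ) := by
  obtain ⟨h1, h2⟩ := h
  constructor
  · show finComp v m 0 0 * ξ.1.2 v + finComp v m 0 1 * ξ.2.2 v ∈ v.adicCompletionIntegers K
    exact (v.adicCompletionIntegers K).add_mem _ _
      ((v.adicCompletionIntegers K).mul_mem _ _ (hm 0 0) h1)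
      ((v.adicCompletionIntegers K).mul_mem _ _ (hm 0 1) h2)
  · show finComp v m 1 0 * ξ.1.2 v + finComp v m 1 1 * ξ.2.2 v ∈ v.adicCompletionIntegers K
    exact (v.adicCompletionIntegers K).add_mem _ _
      ((v.adicCompletionIntegers K).mul_mem _ _ (hm 1 0) h1)
      ((v.adicCompletionIntegers K).mul_mem _ _ (hm 1 1) h2)

end Fermat.Agent.LT.A2.H792

end
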